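import Fermat.Agent.LT.T5.Closed
import Fermat.Agent.LT.T7.H140.SpecDownQSpec

/-!
# Row LT, tower T7, node T7.L2Q.3 `SpecDownQC`, leaf T7.L2Q.3.1 `SDQ140.StfQC` (helper413)

OFF-MAIN, never land.  Registry row 2286.  PLUG of the closed tower T5.

`SDQ140.StfQC n` (frozen in `LT/T7/H140/SpecDownQSpec.lean`, helper140@26e3e6c54, sha256 7aa829b7)
is the trace identity `T5.STFsigma` over `ℚ` for `σ = id`, the `K_∞`-type of `n`
(`w0` = trivial type, `w1` = weight one) and every level `𝔫 ≠ 0`.  The closed tower T5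
(`LT/T5/Closed.lean` v9, helper32@5a6a5cf2e) proves `T5.closed_stf` for EVERY number field, every
adelic automorphism, every level `𝔫 ≠ 0` and every function `τ`; the leaf is its instance
`K = ℚ`, `s = AdelicAut.id ℚ`, `τ = n.type`.

    stfQC413 : ∀ n : L2Q.QWt, SDQ140.StfQC n          (VERBATIM, UNCONDITIONAL)
-/

set_option autoImplicit false

namespace Fermat.Agent.LT.T7.H413

open Fermat.Agent.LT Fermat.Agent.LT.T7

/-- **Leaf T7.L2Q.3.1 = SDQ.1** (`SDQ140.StfQC n`, VERBATIM): the trace identity of tower T5 over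
`ℚ` for `σ = id`, the `K_∞`-type of `n`, every level `𝔫 ≠ 0`. -/
theorem stfQC413 (n : L2Q.QWt) : SDQ140.StfQC n :=
  fun 𝔫 h𝔫 => T5.closed_stf (T5.AdelicAut.id ℚ) 𝔫 n.type h𝔫

/-- The same for the two types at once (the form used by `SDQ140.specDownQC_of140`). -/
theorem stfQC_all413 : ∀ n : L2Q.QWt, SDQ140.StfQC n := stfQC413

end Fermat.Agent.LT.T7.H413
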